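/-
JAC programme (S25), brick M2 AffineDict, helper34.

General facts on invertible (= locally trivial) sheaves of modules on a scheme, for the frozen
predicate `AlgebraicGeometry.Scheme.Modules.IsInvertible`:

* invariance under isomorphism;
* trivialisations may be given on arbitrary open immersions `j : V ⟶ X` (not only on open
  subschemes `U.ι`), and restrict along any morphism factoring through the trivialising open;
* an invertible module is locally free, hence quasi-coherent (Mathlib's
  `SheafOfModules.IsLocallyFree`, `SheafOfModules.IsQuasicoherent`).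
-/
import Mathlib
import Fermat.Prelude.Def_AlgebraicGeometry_RelativePicardFunctor

universe u

open CategoryTheory CategoryTheory.Limits AlgebraicGeometry TopologicalSpace

namespace Fermat.Agent.Jac.AffineDict34

variable {X : Scheme.{u}}

/-- Invertibility is invariant under isomorphism. -/
theorem isInvertible_of_iso {L L' : X.Modules} (e : L ≅ L')
    (h : Scheme.Modules.IsInvertible L) : Scheme.Modules.IsInvertible L' :=
  ⟨fun x => by
    obtain ⟨U, hxU, ⟨eU⟩⟩ := h.exists_trivialization x
    exact ⟨U, hxU, ⟨(Scheme.Modules.pullback U.ι).mapIso e.symm ≪≫ eU⟩⟩⟩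

/-- Pullback of modules along a composition, object-wise, with a free choice of the
composite morphism. -/
noncomputable def pullbackObjCompIso {X Y Z : Scheme.{u}} (f : X ⟶ Y) (g : Y ⟶ Z) (h : X ⟶ Z)
    (w : f ≫ g = h) (L : Z.Modules) :
    (Scheme.Modules.pullback f).obj ((Scheme.Modules.pullback g).obj L) ≅
      (Scheme.Modules.pullback h).obj L :=
  (Scheme.Modules.pullbackComp f g).app L ≪≫ (Scheme.Modules.pullbackCongr w).app L

/-- A trivialisation on an open immersion `j : V ⟶ X` gives a trivialisation on the open
subscheme `j.opensRange`. -/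
noncomputable def trivOnOpensRange {V : Scheme.{u}} (j : V ⟶ X) [IsOpenImmersion j]
    (L : X.Modules)
    (e : (Scheme.Modules.pullback j).obj L ≅ SheafOfModules.unit V.ringCatSheaf) :
    (Scheme.Modules.pullback j.opensRange.ι).obj L ≅
      SheafOfModules.unit j.opensRange.toScheme.ringCatSheaf :=
  (pullbackObjCompIso j.isoOpensRange.inv j j.opensRange.ι
      (Scheme.Hom.isoOpensRange_inv_comp j) L).symm ≪≫
    (Scheme.Modules.pullback j.isoOpensRange.inv).mapIso e ≪≫
    Scheme.Modules.pullbackUnitIso _

/-- Invertibility can be checked on a family of open immersions covering `X`. -/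
theorem isInvertible_of_openImmersions (L : X.Modules)
    (h : ∀ x : X, ∃ (V : Scheme.{u}) (j : V ⟶ X) (_ : IsOpenImmersion j),
      x ∈ Set.range j.base ∧
        Nonempty ((Scheme.Modules.pullback j).obj L ≅ SheafOfModules.unit V.ringCatSheaf)) :
    Scheme.Modules.IsInvertible L :=
  ⟨fun x => by
    obtain ⟨V, j, hj, hx, ⟨e⟩⟩ := h x
    exact ⟨j.opensRange, hx, ⟨trivOnOpensRange j L e⟩⟩⟩

/-- A trivialisation on an open `U` restricts along any morphism factoring through `U`. -/
noncomputable def trivOfFactors {V : Scheme.{u}} (j : V ⟶ X) (U : X.Opens) (j' : V ⟶ U.toScheme)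
    (w : j' ≫ U.ι = j) (L : X.Modules)
    (e : (Scheme.Modules.pullback U.ι).obj L ≅ SheafOfModules.unit U.toScheme.ringCatSheaf) :
    (Scheme.Modules.pullback j).obj L ≅ SheafOfModules.unit V.ringCatSheaf :=
  (pullbackObjCompIso j' U.ι j w L).symm ≪≫ (Scheme.Modules.pullback j').mapIso e ≪≫
    Scheme.Modules.pullbackUnitIso _

/-- A trivialisation on an open `U` restricts to any open immersion with range inside `U`. -/
noncomputable def trivOfRangeSubset {V : Scheme.{u}} (j : V ⟶ X) [IsOpenImmersion j]
    (U : X.Opens) (hj : Set.range j.base ⊆ U) (L : X.Modules)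
    (e : (Scheme.Modules.pullback U.ι).obj L ≅ SheafOfModules.unit U.toScheme.ringCatSheaf) :
    (Scheme.Modules.pullback j).obj L ≅ SheafOfModules.unit V.ringCatSheaf :=
  trivOfFactors j U (IsOpenImmersion.lift U.ι j (by simpa using hj))
    (IsOpenImmersion.lift_fac _ _ _) L e

/-! ### Invertible modules are locally free and quasi-coherent -/

/-- From a trivialisation on `U` (in the pullback form of the frozen definition) to an
isomorphism of the restriction to the over-site with the unit. -/
noncomputable def overIsoUnit (L : X.Modules) (U : X.Opens)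
    (e : (Scheme.Modules.pullback U.ι).obj L ≅ SheafOfModules.unit U.toScheme.ringCatSheaf) :
    L.over U ≅ SheafOfModules.unit (X.ringCatSheaf.over U) :=
  (Scheme.Modules.overEquiv U).functor.preimageIso
    ((Scheme.Modules.overFunctorEquiv U).app L ≪≫
      (Scheme.Modules.restrictFunctorIsoPullback U.ι).app L ≪≫ e ≪≫ Iso.refl _)

section
variable {C : Type*} [Category C] {J : GrothendieckTopology C} {R : Sheaf J RingCat.{u}}
    [HasWeakSheafify J AddCommGrpCat.{u}] [J.WEqualsLocallyBijective AddCommGrpCat.{u}]

/-- The free sheaf of modules on one generator is the unit. -/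
noncomputable def freePUnitIso :
    SheafOfModules.free (R := R) PUnit.{u+1} ≅ SheafOfModules.unit R :=
  coproductUniqueIso _

/-- Generating sections (one generator) from an isomorphism with the unit. -/
noncomputable def gensOfIsoUnit {M : SheafOfModules.{u} R} (e : M ≅ SheafOfModules.unit R) :
    M.GeneratingSections where
  I := PUnit.{u+1}
  s := M.freeHomEquiv (freePUnitIso.hom ≫ e.inv)
  epi := by rw [Equiv.symm_apply_apply]; infer_instance

theorem gensOfIsoUnit_π {M : SheafOfModules.{u} R} (e : M ≅ SheafOfModules.unit R) :
    (gensOfIsoUnit e).π = freePUnitIso.hom ≫ e.inv :=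
  Equiv.symm_apply_apply _ _

theorem isIso_gensOfIsoUnit_π {M : SheafOfModules.{u} R} (e : M ≅ SheafOfModules.unit R) :
    IsIso (gensOfIsoUnit e).π := by
  rw [gensOfIsoUnit_π]
  exact (freePUnitIso ≪≫ e.symm).isIso_hom

end

/-- Local generators data from a family of trivialisations. -/
noncomputable def localGeneratorsDataOfTriv (L : X.Modules) (U : X → X.Opens)
    (hxU : ∀ x, x ∈ U x)
    (e : ∀ x, (Scheme.Modules.pullback (U x).ι).obj L ≅
      SheafOfModules.unit (U x).toScheme.ringCatSheaf) :
    SheafOfModules.LocalGeneratorsData.{u} (R := X.ringCatSheaf) L where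
  I := X
  X := U
  coversTop := by
    rw [Opens.coversTop_iff, IsOpenCover, eq_top_iff]
    intro x _
    exact Opens.mem_iSup.mpr ⟨x, hxU x⟩
  generators := fun x => gensOfIsoUnit (overIsoUnit L (U x) (e x))

theorem localGeneratorsDataOfTriv_isLocallyFreeData (L : X.Modules) (U : X → X.Opens)
    (hxU : ∀ x, x ∈ U x)
    (e : ∀ x, (Scheme.Modules.pullback (U x).ι).obj L ≅
      SheafOfModules.unit (U x).toScheme.ringCatSheaf) :
    (localGeneratorsDataOfTriv L U hxU e).IsLocallyFreeData where
  isIso x := isIso_gensOfIsoUnit_π (overIsoUnit L (U x) (e x))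

/-- An invertible module is locally free. -/
theorem isLocallyFree_of_isInvertible (L : X.Modules) (hL : Scheme.Modules.IsInvertible L) :
    SheafOfModules.IsLocallyFree.{u} (R := X.ringCatSheaf) L := by
  have h := hL.exists_trivialization
  choose U hxU e using h
  have := localGeneratorsDataOfTriv_isLocallyFreeData L U hxU (fun x => (e x).some)
  exact (localGeneratorsDataOfTriv L U hxU (fun x => (e x).some)).isLocallyFree

/-- An invertible module is quasi-coherent. -/
theorem isQuasicoherent_of_isInvertible (L : X.Modules) (hL : Scheme.Modules.IsInvertible L) :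
    SheafOfModules.IsQuasicoherent.{u} (R := X.ringCatSheaf) L := by
  have h := isLocallyFree_of_isInvertible L hL
  have := h.exists_isLocallyFreeData.choose_spec
  exact h.exists_isLocallyFreeData.choose.quasiCoherentData.isQuasicoherent

end Fermat.Agent.Jac.AffineDict34
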