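/-
JAC programme (S25), brick M2 AffineDict, helper34.

Bridge between Mathlib's categorical `ModuleCat.extendScalars (algebraMap R S)` and the
unbundled notion `IsBaseChange S g` (tensor products, localisations):
if `g : M →ₗ[R] N` is a base change to the `R`-algebra `S`, then
`(ModuleCat.extendScalars (algebraMap R S)).obj M ≅ ModuleCat.of S N`.
-/
import Mathlib

open TensorProduct CategoryTheory

universe u

namespace Fermat.Agent.Jac.AffineDict34

variable {R S : Type u} [CommRing R] [CommRing S] [Algebra R S]
variable {M : ModuleCat.{u} R} {N : Type u} [AddCommGroup N] [Module S N] [Module R N]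
  [IsScalarTower R S N]

/-- An `R`-linear map into an `S`-module, as a morphism to the restriction of scalars. -/
noncomputable def toRestrict (g : M →ₗ[R] N) :
    M ⟶ (ModuleCat.restrictScalars (algebraMap R S)).obj (ModuleCat.of S N) :=
  ModuleCat.ofHom (Y := (ModuleCat.restrictScalars (algebraMap R S)).obj (ModuleCat.of S N))
    { toFun := g
      map_add' := g.map_add
      map_smul' := fun r m => by
        show g (r • m) = algebraMap R S r • g m
        rw [algebraMap_smul, g.map_smul] }

/-- The `S`-linear map `S ⊗ M → N`, `s ⊗ m ↦ s • g m`, out of the extension of scalars. -/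
noncomputable def fromExtend (g : M →ₗ[R] N) :
    (ModuleCat.extendScalars (algebraMap R S)).obj M ⟶ ModuleCat.of S N :=
  ModuleCat.ExtendRestrictScalarsAdj.HomEquiv.fromExtendScalars (algebraMap R S) (toRestrict g)

open ChangeOfRings in
theorem fromExtend_one_tmul (g : M →ₗ[R] N) (m : M) :
    (fromExtend g).hom ((1 : S) ⊗ₜ[R, algebraMap R S] m) = g m := by
  have : (fromExtend g).hom ((1 : S) ⊗ₜ[R, algebraMap R S] m) = (1 : S) • g m := rfl
  rw [this, one_smul]

section
variable (R S M)

/-- The carrier of the extension of scalars. -/
abbrev ExtCarrier : Type u := ((ModuleCat.extendScalars (algebraMap R S)).obj M : Type u)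

/-- The `R`-module structure on the extension of scalars (kept local to this file). -/
@[reducible] noncomputable def moduleExtCarrier : Module R (ExtCarrier R S M) :=
  Module.compHom _ (algebraMap R S)

attribute [local instance] moduleExtCarrier

theorem isScalarTowerExtCarrier : IsScalarTower R S (ExtCarrier R S M) :=
  IsScalarTower.of_algebraMap_smul fun _ _ => rfl

attribute [local instance] isScalarTowerExtCarrier

/-- The unit `m ↦ 1 ⊗ m`. -/
noncomputable def extUnit : M →ₗ[R] ExtCarrier R S M :=
  (ModuleCat.ExtendRestrictScalarsAdj.Unit.map (algebraMap R S) (X := M)).hom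

open ChangeOfRings in
theorem extUnit_apply (m : M) : extUnit R S M m = (1 : S) ⊗ₜ[R, algebraMap R S] m := rfl

end

attribute [local instance] moduleExtCarrier isScalarTowerExtCarrier

/-- The inverse map `N → S ⊗ M` when `g` is a base change. -/
noncomputable def toExtendLin (g : M →ₗ[R] N) (hg : IsBaseChange S g) :
    N →ₗ[S] ExtCarrier R S M :=
  IsBaseChange.lift (Q := ExtCarrier R S M) hg (extUnit R S M)

/-- The inverse map `N → S ⊗ M` when `g` is a base change, as a morphism. -/
noncomputable def toExtend (g : M →ₗ[R] N) (hg : IsBaseChange S g) :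
    ModuleCat.of S N ⟶ (ModuleCat.extendScalars (algebraMap R S)).obj M :=
  ModuleCat.ofHom (X := ModuleCat.of S N) (Y := (ModuleCat.extendScalars (algebraMap R S)).obj M)
    (toExtendLin g hg)

theorem toExtend_apply (g : M →ₗ[R] N) (hg : IsBaseChange S g) (m : M) :
    (toExtend g hg).hom (g m) = extUnit R S M m :=
  hg.lift_eq _ _

open ChangeOfRings in
theorem isIso_fromExtend (g : M →ₗ[R] N) (hg : IsBaseChange S g) :
    IsIso (fromExtend (S := S) g) := by
  refine ⟨toExtend g hg, ?_, ?_⟩
  · apply ModuleCat.ExtendScalars.hom_ext
    intro m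
    have h1 : (fromExtend g).hom ((1 : S) ⊗ₜ[R, algebraMap R S] m) = g m :=
      fromExtend_one_tmul g m
    have h2 : (toExtend g hg).hom (g m) = (1 : S) ⊗ₜ[R, algebraMap R S] m :=
      toExtend_apply g hg m
    exact (congrArg (toExtend g hg).hom h1).trans h2
  · apply ModuleCat.hom_ext
    apply hg.algHom_ext
    intro m
    have h1 : (fromExtend g).hom ((1 : S) ⊗ₜ[R, algebraMap R S] m) = g m :=
      fromExtend_one_tmul g m
    have h2 : (toExtend g hg).hom (g m) = (1 : S) ⊗ₜ[R, algebraMap R S] m :=
      toExtend_apply g hg m
    exact (congrArg (fromExtend g).hom h2).trans h1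

/-- If `g : M →ₗ[R] N` is a base change to `S`, the categorical extension of scalars of `M`
is `N`. -/
noncomputable def extendScalarsIsoOfIsBaseChange (g : M →ₗ[R] N) (hg : IsBaseChange S g) :
    (ModuleCat.extendScalars (algebraMap R S)).obj M ≅ ModuleCat.of S N :=
  haveI := isIso_fromExtend g hg
  asIso (fromExtend g)

/-- The categorical extension of scalars is the tensor product `S ⊗[R] M`. -/
noncomputable def extendScalarsIsoTensor (S : Type u) [CommRing S] [Algebra R S]
    (M : ModuleCat.{u} R) :
    (ModuleCat.extendScalars (algebraMap R S)).obj M ≅ ModuleCat.of S (S ⊗[R] M) :=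
  extendScalarsIsoOfIsBaseChange (TensorProduct.mk R S M 1) (TensorProduct.isBaseChange R M S)

/-- The categorical extension of scalars along a localisation is the localised module. -/
noncomputable def extendScalarsIsoLocalizedModule (P : Submonoid R) (M : ModuleCat.{u} R) :
    (ModuleCat.extendScalars (algebraMap R (Localization P))).obj M ≅
      ModuleCat.of (Localization P) (LocalizedModule P M) :=
  extendScalarsIsoOfIsBaseChange (LocalizedModule.mkLinearMap P M)
    (LocalizedModule.isBaseChange P M)

end Fermat.Agent.Jac.AffineDict34
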