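/-
JAC programme (S25), brick M2 AffineDict (invertible part), helper34.

Commutative algebra: a module which is free of rank one on a standard open cover
`D(r)`, `r ∈ s`, `Ideal.span s = ⊤`, is an invertible module (`Module.Invertible`), and
conversely (Mathlib: `Module.Invertible.exists_finset_free_localization`).
-/
import Mathlib

open TensorProduct

namespace Fermat.Agent.Jac.AffineDict34

variable {R : Type*} [CommRing R] {M : Type*} [AddCommGroup M] [Module R M]

/-- A module which is free of rank one on a standard open cover is invertible. -/
theorem invertible_of_localizationSpan (s : Set R) (hs : Ideal.span s = ⊤)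
    (h : ∀ r : s, Nonempty (LocalizedModule.Away r.1 M ≃ₗ[Localization.Away r.1]
      Localization.Away r.1)) : Module.Invertible R M := by
  have hfp : Module.FinitePresentation R M := by
    refine Module.FinitePresentation.of_localizationSpan s hs fun r => ?_
    obtain ⟨e⟩ := h r
    exact Module.FinitePresentation.of_equiv e.symm
  have hinv : ∀ r : s, Module.Invertible (Localization.Away r.1) (LocalizedModule.Away r.1 M) :=
    fun r => Module.Invertible.congr (h r).some.symm
  refine ⟨?_⟩
  refine bijective_of_isLocalized_span s hs
    (fun r => Module.Dual (Localization.Away r.1) (LocalizedModule.Away r.1 M) ⊗[R]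
      LocalizedModule.Away r.1 M)
    (fun r => TensorProduct.map
      (IsLocalizedModule.mapExtendScalars (.powers r.1)
        (LocalizedModule.mkLinearMap (.powers r.1) M)
        (Algebra.linearMap R (Localization.Away r.1)) (Localization.Away r.1))
      (LocalizedModule.mkLinearMap (.powers r.1) M))
    (fun r => Localization.Away r.1)
    (fun r => Algebra.linearMap R (Localization.Away r.1))
    (contractLeft R M) fun r => ?_
  let e : Module.Dual (Localization.Away r.1) (LocalizedModule.Away r.1 M)
        ⊗[Localization.Away r.1] LocalizedModule.Away r.1 M ≃ₗ[R]
      Module.Dual (Localization.Away r.1) (LocalizedModule.Away r.1 M) ⊗[R]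
        LocalizedModule.Away r.1 M :=
    TensorProduct.equivOfCompatibleSMul R (Localization.Away r.1) R _ _
  have key : IsLocalizedModule.map (.powers r.1)
      (TensorProduct.map
      (IsLocalizedModule.mapExtendScalars (.powers r.1)
        (LocalizedModule.mkLinearMap (.powers r.1) M)
        (Algebra.linearMap R (Localization.Away r.1)) (Localization.Away r.1))
      (LocalizedModule.mkLinearMap (.powers r.1) M))
      (Algebra.linearMap R (Localization.Away r.1)) (contractLeft R M) =
      ((contractLeft (Localization.Away r.1) (LocalizedModule.Away r.1 M)).restrictScalars R) ∘ₗ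
        e.symm.toLinearMap := by
    apply IsLocalizedModule.linearMap_ext (.powers r.1) (TensorProduct.map
      (IsLocalizedModule.mapExtendScalars (.powers r.1)
        (LocalizedModule.mkLinearMap (.powers r.1) M)
        (Algebra.linearMap R (Localization.Away r.1)) (Localization.Away r.1))
      (LocalizedModule.mkLinearMap (.powers r.1) M)) (Algebra.linearMap R (Localization.Away r.1))
    rw [IsLocalizedModule.map_comp]
    ext φ m
    simp [e, TensorProduct.equivOfCompatibleSMul]
    exact (IsLocalizedModule.map_apply (.powers r.1) (LocalizedModule.mkLinearMap (.powers r.1) M)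
      (Algebra.linearMap R (Localization.Away r.1)) φ m).symm
  rw [key]
  exact (hinv r).bijective.comp e.symm.bijective

/-- An invertible module is free of rank one on a finite standard open cover. -/
theorem exists_finset_localization_linearEquiv [Module.Invertible R M] :
    ∃ s : Finset R, Ideal.span (s : Set R) = ⊤ ∧
      ∀ r ∈ s, Nonempty (LocalizedModule.Away r M ≃ₗ[Localization.Away r] Localization.Away r) := by
  obtain ⟨s, hs, hfree⟩ := Module.Invertible.exists_finset_free_localization R M
  refine ⟨s, hs, fun r hr => ?_⟩
  have := hfree r hr
  exact Module.Invertible.free_iff_linearEquiv.mp inferInstance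

/-- Invertibility is equivalent to being free of rank one on a standard open cover. -/
theorem invertible_iff_exists_localizationSpan :
    Module.Invertible R M ↔
      ∃ s : Set R, Ideal.span s = ⊤ ∧
        ∀ r ∈ s, Nonempty (LocalizedModule.Away r M ≃ₗ[Localization.Away r] Localization.Away r) := by
  constructor
  · intro h
    obtain ⟨s, hs, h'⟩ := exists_finset_localization_linearEquiv (R := R) (M := M)
    exact ⟨s, hs, h'⟩
  · rintro ⟨s, hs, h⟩
    exact invertible_of_localizationSpan s hs fun r => h r.1 r.2

end Fermat.Agent.Jac.AffineDict34
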