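/-
JAC programme (S25), brick M2 AffineDict, helper34.

Pullback of `M^~` along `Spec.map φ` is `(S ⊗[R] M)^~` (uniqueness of left adjoints).
-/
import Mathlib
import Fermat.Agent.Jac.AffineDict34.ExtendScalars

universe u

open CategoryTheory CategoryTheory.Limits AlgebraicGeometry TopologicalSpace

namespace Fermat.Agent.Jac.AffineDict34

variable {R S : CommRingCat.{u}} (φ : R ⟶ S)

/-- Global sections of the pushforward along `Spec.map φ` are the restriction of scalars of the
global sections. -/
noncomputable def pushforwardCompΓIso :
    Scheme.Modules.pushforward (Spec.map φ) ⋙ moduleSpecΓFunctor (R := R) ≅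
      moduleSpecΓFunctor (R := S) ⋙ ModuleCat.restrictScalars φ.hom :=
  Functor.isoWhiskerRight (pushforwardCompModulesSpecToSheafIso φ)
    (TopCat.Sheaf.forget _ _ ⋙ (evaluation _ _).obj (.op ⊤)) ≪≫ Iso.refl _

/-- Pullback of `M^~` along `Spec.map φ` is the tilde of the extension of scalars, naturally
in `M`. -/
noncomputable def pullbackTildeNatIso :
    tilde.functor R ⋙ Scheme.Modules.pullback (Spec.map φ) ≅
      ModuleCat.extendScalars φ.hom ⋙ tilde.functor S :=
  (tilde.adjunction.comp
      (Scheme.Modules.pullbackPushforwardAdjunction (Spec.map φ))).leftAdjointUniq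
    (((ModuleCat.extendRestrictScalarsAdj φ.hom).comp tilde.adjunction).ofNatIsoRight
      (pushforwardCompΓIso φ).symm)

/-- Pullback of `M^~` along `Spec.map φ` is the tilde of the extension of scalars. -/
noncomputable def pullbackTildeIso (M : ModuleCat.{u} R) :
    (Scheme.Modules.pullback (Spec.map φ)).obj (tilde M) ≅
      tilde ((ModuleCat.extendScalars φ.hom).obj M) :=
  (pullbackTildeNatIso φ).app M

end Fermat.Agent.Jac.AffineDict34
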