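/-
JAC programme (S25), brick M2 AffineDict (invertible part), helper34.

**Affine dictionary for invertible sheaves of modules** (frozen predicate
`AlgebraicGeometry.Scheme.Modules.IsInvertible` = locally trivial):

* `isInvertible_tilde_iff` : `IsInvertible (tilde M) ↔ Module.Invertible R M`;
* `exists_tilde_iso_of_isInvertible` : every invertible `L` on `Spec R` is `M^~`, `M` invertible;
  more precisely `isoTildeGlobalSections`, `invertible_globalSections`;
* `nonempty_tilde_iso_iff`, `nonempty_tilde_iso_unit_iff` : isomorphism classes;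
* `pullbackAwayTildeIso` : restriction of `M^~` to `Spec R[1/r]` is the tilde of `M[1/r]`.
-/
import Mathlib
import Fermat.Prelude.Def_AlgebraicGeometry_RelativePicardFunctor
import Fermat.Agent.Jac.AffineDict34.InvertibleLocal
import Fermat.Agent.Jac.AffineDict34.ExtendScalars
import Fermat.Agent.Jac.AffineDict34.LocallyTrivial
import Fermat.Agent.Jac.AffineDict34.PullbackTilde

universe u

open CategoryTheory CategoryTheory.Limits AlgebraicGeometry TopologicalSpace

namespace Fermat.Agent.Jac.AffineDict34

variable {R : CommRingCat.{u}}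

/-- The localisation map `R ⟶ R[1/r]` in `CommRingCat`. -/
noncomputable abbrev awayMap (r : R) : R ⟶ CommRingCat.of (Localization.Away r) :=
  CommRingCat.ofHom (algebraMap R (Localization.Away r))

theorem range_specMap_awayMap (r : R) :
    Set.range (Spec.map (awayMap r)).base = (PrimeSpectrum.basicOpen r : Set (PrimeSpectrum R)) :=
  PrimeSpectrum.localization_away_comap_range (Localization.Away r) r

/-- `M^~` pulled back to `Spec R[1/r]` is the tilde of the localised module. -/
noncomputable def pullbackAwayTildeIso (r : R) (M : ModuleCat.{u} R) :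
    (Scheme.Modules.pullback (Spec.map (awayMap r))).obj (tilde M) ≅
      tilde (R := CommRingCat.of (Localization.Away r))
        (ModuleCat.of (Localization.Away r) (LocalizedModule.Away r M)) :=
  pullbackTildeIso (awayMap r) M ≪≫
    (tilde.functor (CommRingCat.of (Localization.Away r))).mapIso
      (extendScalarsIsoLocalizedModule (.powers (r : R)) M)


/-- If `M` is invertible then `M^~` is an invertible sheaf of modules. -/
theorem isInvertible_tilde_of_invertible (M : ModuleCat.{u} R) [Module.Invertible R M] :
    Scheme.Modules.IsInvertible (tilde M) := by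
  obtain ⟨s, hs, hfree⟩ := exists_finset_localization_linearEquiv (R := R) (M := M)
  apply isInvertible_of_openImmersions
  intro x
  obtain ⟨r, hr, hxr⟩ : ∃ r ∈ s, r ∉ x.asIdeal := by
    by_contra hcon
    push Not at hcon
    have h1 : Ideal.span (s : Set R) ≤ x.asIdeal := Ideal.span_le.mpr hcon
    rw [hs] at h1
    exact x.isPrime.ne_top (top_le_iff.mp h1)
  obtain ⟨e⟩ := hfree r hr
  refine ⟨Spec (CommRingCat.of (Localization.Away r)), Spec.map (awayMap r), inferInstance, ?_, ⟨?_⟩⟩
  · rw [range_specMap_awayMap]
    exact hxr
  · exact pullbackAwayTildeIso r M ≪≫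
      (tilde.functor (CommRingCat.of (Localization.Away r))).mapIso e.toModuleIso ≪≫ tildeSelf


/-- A trivialisation of `M^~` on an open containing `D(r)` trivialises the localised module. -/
noncomputable def localizedLinearEquivOfTriv (M : ModuleCat.{u} R) (U : (Spec R).Opens) (r : R)
    (hrU : (PrimeSpectrum.basicOpen r : Set (PrimeSpectrum R)) ⊆ (U : Set (Spec R)))
    (e : (Scheme.Modules.pullback U.ι).obj (tilde M) ≅
      SheafOfModules.unit U.toScheme.ringCatSheaf) :
    LocalizedModule.Away r M ≃ₗ[Localization.Away r] Localization.Away r :=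
  ((tilde.fullyFaithfulFunctor (R := CommRingCat.of (Localization.Away r))).preimageIso
    ((pullbackAwayTildeIso r M).symm ≪≫
      trivOfRangeSubset (Spec.map (awayMap r)) U (by rw [range_specMap_awayMap]; exact hrU)
        (tilde M) e ≪≫ tildeSelf.symm)).toLinearEquiv

/-- If `M^~` is an invertible sheaf of modules then `M` is an invertible module. -/
theorem invertible_of_isInvertible_tilde (M : ModuleCat.{u} R)
    (hM : Scheme.Modules.IsInvertible (tilde M)) : Module.Invertible R M := by
  refine invertible_of_localizationSpan
    {r : R | Nonempty (LocalizedModule.Away r M ≃ₗ[Localization.Away r] Localization.Away r)}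
    ?_ (fun r => r.2)
  by_contra hspan
  obtain ⟨m, hm, hle⟩ := Ideal.exists_le_maximal _ hspan
  obtain ⟨U, hxU, ⟨e⟩⟩ := hM.exists_trivialization (⟨m, hm.isPrime⟩ : PrimeSpectrum R)
  obtain ⟨_, ⟨_, ⟨r, rfl⟩, rfl⟩, hxr, hrU⟩ :=
    PrimeSpectrum.isBasis_basic_opens.exists_subset_of_mem_open hxU U.2
  exact hxr (hle (Ideal.subset_span ⟨localizedLinearEquivOfTriv M U r hrU e⟩))


/-- **Affine dictionary for invertible sheaves.** `M^~` is an invertible sheaf of modules on
`Spec R` iff `M` is an invertible `R`-module. -/
theorem isInvertible_tilde_iff (M : ModuleCat.{u} R) :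
    Scheme.Modules.IsInvertible (tilde M) ↔ Module.Invertible R M :=
  ⟨invertible_of_isInvertible_tilde M, fun _ => isInvertible_tilde_of_invertible M⟩

/-- An invertible sheaf of modules on `Spec R` is the tilde of its global sections. -/
theorem isIso_fromTildeΓ_of_isInvertible (L : (Spec R).Modules)
    (hL : Scheme.Modules.IsInvertible L) : IsIso L.fromTildeΓ := by
  have : SheafOfModules.IsQuasicoherent.{u} (R := (Spec R).ringCatSheaf) L :=
    isQuasicoherent_of_isInvertible L hL
  infer_instance

/-- The module of global sections of a sheaf of modules on `Spec R`, as an `R`-module. -/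
noncomputable abbrev globalSections (L : (Spec R).Modules) : ModuleCat.{u} R :=
  (modulesSpecToSheaf.obj L).presheaf.obj (.op ⊤)

/-- An invertible sheaf of modules on `Spec R` is the tilde of its global sections. -/
noncomputable def isoTildeGlobalSections (L : (Spec R).Modules)
    (hL : Scheme.Modules.IsInvertible L) : tilde (globalSections L) ≅ L :=
  haveI := isIso_fromTildeΓ_of_isInvertible L hL
  asIso L.fromTildeΓ

/-- The global sections of an invertible sheaf of modules on `Spec R` form an invertible
module. -/
theorem invertible_globalSections (L : (Spec R).Modules) (hL : Scheme.Modules.IsInvertible L) :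
    Module.Invertible R (globalSections L) :=
  invertible_of_isInvertible_tilde _
    (isInvertible_of_iso (isoTildeGlobalSections L hL).symm hL)

/-- Every invertible sheaf of modules on `Spec R` is `M^~` for an invertible module `M`. -/
theorem exists_tilde_iso_of_isInvertible (L : (Spec R).Modules)
    (hL : Scheme.Modules.IsInvertible L) :
    ∃ M : ModuleCat.{u} R, Module.Invertible R M ∧ Nonempty (L ≅ tilde M) :=
  ⟨globalSections L, invertible_globalSections L hL, ⟨(isoTildeGlobalSections L hL).symm⟩⟩

/-- `M^~ ≅ N^~` iff `M ≅ N` (full faithfulness of tilde). -/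
theorem nonempty_tilde_iso_iff (M N : ModuleCat.{u} R) :
    Nonempty (tilde M ≅ tilde N) ↔ Nonempty (M ≅ N) :=
  ⟨fun ⟨e⟩ => ⟨(tilde.fullyFaithfulFunctor (R := R)).preimageIso e⟩,
    fun ⟨e⟩ => ⟨(tilde.functor R).mapIso e⟩⟩

/-- `M^~` is trivial iff `M` is free of rank one. -/
theorem nonempty_tilde_iso_unit_iff (M : ModuleCat.{u} R) :
    Nonempty (tilde M ≅ SheafOfModules.unit (Spec R).ringCatSheaf) ↔ Nonempty (M ≃ₗ[R] R) := by
  constructor
  · rintro ⟨e⟩
    exact ⟨((tilde.fullyFaithfulFunctor (R := R)).preimageIso
      (e ≪≫ (tildeSelf (R := R)).symm)).toLinearEquiv⟩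
  · rintro ⟨e⟩
    exact ⟨(tilde.functor R).mapIso e.toModuleIso ≪≫ tildeSelf⟩

end Fermat.Agent.Jac.AffineDict34
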