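/-
JAC programme (S25), brick M2b AffineDict.Opens, helper34.

Affine opens of an arbitrary scheme.  For `X : Scheme`, `U : X.Opens` affine, `M : X.Modules`
quasi-coherent, `f : Γ(X, U)` and `V = X.basicOpen f`:

* `isLocalizedModule_resLinearMap` : the restriction `Γ(M, U) → Γ(M, V)` is the localisation of
  the `Γ(X, U)`-module `Γ(M, U)` at `f` (`IsLocalizedModule (Submonoid.powers f)`), where
  `Γ(M, V)` is a `Γ(X, U)`-module through restriction of functions (`sectionsModuleOfLE`).

The proof transports Mathlib's statement on `Spec Γ(X, U)` (`IsLocalizing`) along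
`hU.fromSpec`.
-/
import Mathlib
import Fermat.Prelude.Def_AlgebraicGeometry_RelativePicardFunctor

universe u

open CategoryTheory CategoryTheory.Limits AlgebraicGeometry TopologicalSpace Opposite

namespace Fermat.Agent.Jac.AffineDict34

/-! ### Statements on `Spec R` in elementary form -/

section SpecSide

variable {R : CommRingCat.{u}}

/-- The basic open `D(f)` of `Spec R`, as an open of the scheme. -/
abbrev specD (f : R) : (Spec R).Opens := PrimeSpectrum.basicOpen f

variable (M' : (Spec R).Modules) (h : IsLocalizing (modulesSpecToSheaf.obj M')) (f : R)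
include h

theorem exists_of_isLocalizing (s : Γ(M', specD f)) :
    ∃ (n : ℕ) (t : Γ(M', ⊤)),
      M'.presheaf.map (homOfLE (le_top : specD f ≤ ⊤)).op t = f ^ n • s := by
  have hf : IsLocalizedModule.Away f
    ((modulesSpecToSheaf.obj M').obj.map (PrimeSpectrum.basicOpen f).leTop.op).hom := h f
  obtain ⟨n, y, hy⟩ := hf.surj _ _ s
  exact ⟨n, y, hy.symm⟩

theorem eq_zero_of_isLocalizing (t : Γ(M', ⊤))
    (ht : M'.presheaf.map (homOfLE (le_top : specD f ≤ ⊤)).op t = 0) :
    ∃ n : ℕ, f ^ n • t = 0 := by
  have hf : IsLocalizedModule.Away f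
    ((modulesSpecToSheaf.obj M').obj.map (PrimeSpectrum.basicOpen f).leTop.op).hom := h f
  obtain ⟨⟨_, n, rfl⟩, hn⟩ := (IsLocalizedModule.eq_zero_iff (.powers f)
    ((modulesSpecToSheaf.obj M').obj.map (PrimeSpectrum.basicOpen f).leTop.op).hom).mp ht
  exact ⟨n, hn⟩

end SpecSide

/-! ### Generalities on sections -/

section Sections

variable {X : Scheme.{u}} (M : X.Modules)

/-- `Γ(M, V)` as a `Γ(X, U)`-module through restriction of functions. -/
@[reducible] noncomputable def sectionsModuleOfLE {U V : X.Opens} (i : V ⟶ U) :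
    Module Γ(X, U) Γ(M, V) :=
  Module.compHom Γ(M, V) (X.presheaf.map i.op).hom

/-- Restriction of sections, as a `Γ(X, U)`-linear map. -/
noncomputable def resLinearMap {U V : X.Opens} (i : V ⟶ U) :
    @LinearMap Γ(X, U) Γ(X, U) _ _ (RingHom.id _) Γ(M, U) Γ(M, V) _ _ _
      (sectionsModuleOfLE M i) :=
  letI := sectionsModuleOfLE M i
  { toFun := fun x => (M.presheaf.map i.op).hom x
    map_add' := fun x y => map_add _ x y
    map_smul' := fun r x => M.map_smul i r x }

theorem resLinearMap_apply {U V : X.Opens} (i : V ⟶ U) (x : Γ(M, U)) :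
    resLinearMap M i x = (M.presheaf.map i.op).hom x := rfl

/-- Sections over equal opens. -/
noncomputable def secIsoOfEq {W W' : X.Opens} (h : W = W') : Γ(M, W) ≅ Γ(M, W') :=
  M.presheaf.mapIso (eqToIso (congrArg op h))

theorem secIsoOfEq_hom {W W' : X.Opens} (h : W = W') :
    (secIsoOfEq M h).hom = M.presheaf.map (eqToHom h.symm).op := by
  subst h; simp [secIsoOfEq]

theorem secIsoOfEq_hom_smul {W W' : X.Opens} (h : W = W') (a : Γ(X, W)) (x : Γ(M, W)) :
    (secIsoOfEq M h).hom.hom (a • x) =
      (X.presheaf.map (eqToHom h.symm).op).hom a • (secIsoOfEq M h).hom.hom x := by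
  subst h
  simp [secIsoOfEq]

/-- An isomorphism of abelian groups commuting with scalars is a linear equivalence. -/
noncomputable def linearEquivOfAddIso {R : Type*} [Ring R] {A B : AddCommGrpCat.{u}}
    [Module R A] [Module R B] (e : A ≅ B)
    (h : ∀ (r : R) (x : A), e.hom.hom (r • x) = r • e.hom.hom x) :
    A ≃ₗ[R] B :=
  { toFun := e.hom.hom
    map_add' := fun x y => map_add _ x y
    map_smul' := h
    invFun := e.inv.hom
    left_inv := fun x => by
      have := congrArg (fun g => g.hom x) e.hom_inv_id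
      simpa using this
    right_inv := fun y => by
      have := congrArg (fun g => g.hom y) e.inv_hom_id
      simpa using this }

/-- On `V = X.basicOpen f`, the function `f` acts invertibly on sections. -/
theorem isUnit_algebraMap_end_sections {U V : X.Opens} (f : Γ(X, U)) (i : V ⟶ U)
    (hV : V = X.basicOpen f) :
    letI := sectionsModuleOfLE M i
    IsUnit (algebraMap Γ(X, U) (Module.End Γ(X, U) Γ(M, V)) f) := by
  letI := sectionsModuleOfLE M i
  have hu : IsUnit ((X.presheaf.map i.op).hom f) := by
    subst hV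
    exact X.toRingedSpace.isUnit_res_basicOpen f
  rw [Module.End.isUnit_iff]
  obtain ⟨a, ha⟩ := hu
  refine ⟨fun x y hxy => ?_, fun y => ⟨(↑a⁻¹ : Γ(X, V)) • y, ?_⟩⟩
  · have h1 : (a : Γ(X, V)) • x = (a : Γ(X, V)) • y := by rw [ha]; exact hxy
    have := congrArg (fun z => (↑a⁻¹ : Γ(X, V)) • z) h1
    simpa [smul_smul] using this
  · show (X.presheaf.map i.op).hom f • ((↑a⁻¹ : Γ(X, V)) • y) = y
    rw [← ha, smul_smul, Units.mul_inv, one_smul]

end Sections

/-! ### Transport along `hU.fromSpec` -/

section Transport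

variable {X : Scheme.{u}} {U : X.Opens} (hU : IsAffineOpen U) (M : X.Modules)

theorem fromSpec_image_le (W : (Spec Γ(X, U)).Opens) : hU.fromSpec ''ᵁ W ≤ U :=
  (Scheme.Hom.image_le_opensRange _ _).trans_eq hU.opensRange_fromSpec

theorem fromSpec_image_top : hU.fromSpec ''ᵁ ⊤ = U := by
  rw [Scheme.Hom.image_top_eq_opensRange, hU.opensRange_fromSpec]

theorem fromSpec_image_specD {V : X.Opens} (f : Γ(X, U)) (hV : V = X.basicOpen f) :
    hU.fromSpec ''ᵁ specD f = V := by
  rw [hV]; exact hU.fromSpec_image_basicOpen f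

/-- Key ring-level compatibility: the `Γ(X, U)`-algebra structure on functions of
`Spec Γ(X, U)` over `W` corresponds to restriction of functions on `X`. -/
theorem res_appIso_inv (W : (Spec Γ(X, U)).Opens) :
    (Scheme.ΓSpecIso Γ(X, U)).inv ≫ (Spec Γ(X, U)).presheaf.map W.leTop.op ≫
      (hU.fromSpec.appIso W).inv =
    X.presheaf.map (homOfLE (fromSpec_image_le hU W)).op := by
  rw [← Category.assoc, Iso.comp_inv_eq, Scheme.Hom.appIso_hom', Scheme.Hom.map_appLE,
    Scheme.Hom.appLE, hU.fromSpec_app_self, Category.assoc, ← Functor.map_comp]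
  rfl

/-- The `Γ(X, U)`-module structure on sections of `M.restrict hU.fromSpec` is the action through
restriction of functions on `X`. -/
theorem smul_restrict_fromSpec (W : (Spec Γ(X, U)).Opens) (r : Γ(X, U))
    (x : Γ(M.restrict hU.fromSpec, W)) :
    (M.restrictAppIso hU.fromSpec W).hom.hom (r • x) =
      (X.presheaf.map (homOfLE (fromSpec_image_le hU W)).op).hom r •
        (M.restrictAppIso hU.fromSpec W).hom.hom x := by
  rw [Scheme.Modules.smul_Spec_def]
  have h := Scheme.Modules.smul_restrictAppIso_hom_apply hU.fromSpec M W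
    (((Spec Γ(X, U)).presheaf.map W.leTop.op).hom ((Scheme.ΓSpecIso Γ(X, U)).inv.hom r)) x
  have h2 := congrArg (fun g => g.hom r) (res_appIso_inv hU W)
  simp only [CommRingCat.hom_comp, RingHom.comp_apply] at h2
  rw [← h2]
  exact h

/-- `Γ(M, U) ≃ Γ(M|Spec Γ(X,U), ⊤)`, linear over `Γ(X, U)`. -/
noncomputable def secEquivTop :
    Γ(M, U) ≃ₗ[Γ(X, U)] Γ(M.restrict hU.fromSpec, ⊤) :=
  linearEquivOfAddIso
    (secIsoOfEq M (fromSpec_image_top hU).symm ≪≫ (M.restrictAppIso hU.fromSpec ⊤).symm)
    (fun r x => by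
      apply (ConcreteCategory.injective_of_mono_of_preservesPullback
        (M.restrictAppIso hU.fromSpec ⊤).hom)
      rw [smul_restrict_fromSpec]
      show (secIsoOfEq M (fromSpec_image_top hU).symm).hom.hom (r • x) =
        (X.presheaf.map (homOfLE (fromSpec_image_le hU ⊤)).op).hom r •
          (secIsoOfEq M (fromSpec_image_top hU).symm).hom.hom x
      rw [secIsoOfEq_hom_smul]
      rfl)

/-- `Γ(M|Spec Γ(X,U), D(f)) ≃ Γ(M, V)` for `V = X.basicOpen f`, linear over `Γ(X, U)`. -/
noncomputable def secEquivBasicOpen {V : X.Opens} (f : Γ(X, U)) (i : V ⟶ U)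
    (hV : V = X.basicOpen f) :
    @LinearEquiv Γ(X, U) Γ(X, U) _ _ (RingHom.id _) (RingHom.id _) _ _
      Γ(M.restrict hU.fromSpec, specD f) Γ(M, V) _ _ _
      (sectionsModuleOfLE M i) :=
  letI := sectionsModuleOfLE M i
  linearEquivOfAddIso
    ((M.restrictAppIso hU.fromSpec (specD f)) ≪≫
      secIsoOfEq M (fromSpec_image_specD hU f hV))
    (fun r y => by
      show (secIsoOfEq M (fromSpec_image_specD hU f hV)).hom.hom
          ((M.restrictAppIso hU.fromSpec (specD f)).hom.hom (r • y)) =
        (X.presheaf.map i.op).hom r • (secIsoOfEq M (fromSpec_image_specD hU f hV)).hom.hom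
          ((M.restrictAppIso hU.fromSpec (specD f)).hom.hom y)
      rw [smul_restrict_fromSpec, secIsoOfEq_hom_smul]
      congr 1
      rw [← RingHom.comp_apply, ← CommRingCat.hom_comp, ← Functor.map_comp]
      rfl)

theorem secEquiv_comm {V : X.Opens} (f : Γ(X, U)) (i : V ⟶ U) (hV : V = X.basicOpen f)
    (x : Γ(M, U)) :
    secEquivBasicOpen hU M f i hV
      ((M.restrict hU.fromSpec).presheaf.map (homOfLE (le_top : specD f ≤ ⊤)).op
        (secEquivTop hU M x)) = (M.presheaf.map i.op).hom x := by
  show (secIsoOfEq M (fromSpec_image_specD hU f hV)).hom.hom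
    ((M.presheaf.map (homOfLE (Scheme.Hom.image_mono hU.fromSpec
      (le_top : specD f ≤ ⊤))).op).hom
      ((secIsoOfEq M (fromSpec_image_top hU).symm).hom.hom x)) = _
  rw [secIsoOfEq_hom, secIsoOfEq_hom]
  rw [← ConcreteCategory.comp_apply, ← ConcreteCategory.comp_apply, ← Functor.map_comp,
    ← Functor.map_comp]
  rfl

/-- The restriction of a quasi-coherent module to `Spec Γ(X, U)` is localizing. -/
theorem isLocalizing_restrict_fromSpec
    [hM : SheafOfModules.IsQuasicoherent.{u} (R := X.ringCatSheaf) M] :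
    IsLocalizing (modulesSpecToSheaf.obj (M.restrict hU.fromSpec)) := by
  have : (M.restrict hU.fromSpec).IsQuasicoherent :=
    Scheme.Modules.isQuasicoherent_restrictFunctor hU.fromSpec M
  rw [← isIso_fromTildeΓ_iff_isLocalizing]
  infer_instance

include hU in
/-- **Sections of a quasi-coherent module over a basic open of an affine open are the
localisation.** -/
theorem isLocalizedModule_resLinearMap
    [hM : SheafOfModules.IsQuasicoherent.{u} (R := X.ringCatSheaf) M]
    {V : X.Opens} (f : Γ(X, U)) (i : V ⟶ U) (hV : V = X.basicOpen f) :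
    @IsLocalizedModule Γ(X, U) _ Γ(M, U) Γ(M, V) _ _ _
      (sectionsModuleOfLE M i) (Submonoid.powers f) (resLinearMap M i) := by
  letI := sectionsModuleOfLE M i
  have hloc := isLocalizing_restrict_fromSpec hU M
  show IsLocalizedModule.Away f (resLinearMap M i)
  refine IsLocalizedModule.Away.mk_of_addCommGroup
    (isUnit_algebraMap_end_sections M f i hV) ?_ ?_
  · intro y
    obtain ⟨n, t, ht⟩ := exists_of_isLocalizing (M.restrict hU.fromSpec) hloc f
      ((secEquivBasicOpen hU M f i hV).symm y)
    refine ⟨n, (secEquivTop hU M).symm t, ?_⟩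
    have h1 := secEquiv_comm hU M f i hV ((secEquivTop hU M).symm t)
    rw [LinearEquiv.apply_symm_apply, ht, map_smul, LinearEquiv.apply_symm_apply] at h1
    exact h1
  · intro x hx
    have h1 := secEquiv_comm hU M f i hV x
    have h2 : (M.restrict hU.fromSpec).presheaf.map (homOfLE (le_top : specD f ≤ ⊤)).op
        (secEquivTop hU M x) = 0 := by
      apply (secEquivBasicOpen hU M f i hV).injective
      rw [h1, map_zero]
      exact hx
    obtain ⟨n, hn⟩ := eq_zero_of_isLocalizing (M.restrict hU.fromSpec) hloc f _ h2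
    refine ⟨n, ?_⟩
    apply (secEquivTop hU M).injective
    rw [map_smul, hn, map_zero]

end Transport

end Fermat.Agent.Jac.AffineDict34
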