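/-
JAC programme (S25), brick M2b AffineDict.Opens, helper34.

* `isInvertible_restrict` : restriction of an invertible module along an open immersion;
* `invertible_sections` : for `U` an affine open of a scheme `X` and `M` an invertible
  `𝒪_X`-module, `Γ(M, U)` is an invertible `Γ(X, U)`-module;
* `isQuasicoherent`-free corollary of `isLocalizedModule_resLinearMap` for invertible modules.
-/
import Fermat.Agent.Jac.AffineDict34.Opens
import Fermat.Agent.Jac.AffineDict34.SpecInvertible

universe u

open CategoryTheory AlgebraicGeometry TopologicalSpace Opposite

namespace Fermat.Agent.Jac.AffineDict34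

variable {X : Scheme.{u}} {U : X.Opens} (hU : IsAffineOpen U) (M : X.Modules)

/-- The restriction of an invertible module along an open immersion is invertible. -/
theorem isInvertible_restrict {Y : Scheme.{u}} (j : Y ⟶ X) [IsOpenImmersion j]
    (hM : Scheme.Modules.IsInvertible M) : Scheme.Modules.IsInvertible (M.restrict j) :=
  isInvertible_of_iso ((Scheme.Modules.restrictFunctorIsoPullback j).app M).symm (hM.pullback j)

include hU in
/-- **Sections of an invertible module over an affine open form an invertible module.** -/
theorem invertible_sections (hM : Scheme.Modules.IsInvertible M) :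
    Module.Invertible Γ(X, U) Γ(M, U) := by
  have h1 : Module.Invertible Γ(X, U) (globalSections (M.restrict hU.fromSpec)) :=
    invertible_globalSections _ (isInvertible_restrict M hU.fromSpec hM)
  have h2 : Module.Invertible Γ(X, U) Γ(M.restrict hU.fromSpec, ⊤) := h1
  exact Module.Invertible.congr (secEquivTop hU M).symm

include hU in
/-- Sections of an invertible module over a basic open of an affine open are the
localisation. -/
theorem isLocalizedModule_resLinearMap_of_isInvertible (hM : Scheme.Modules.IsInvertible M)
    {V : X.Opens} (f : Γ(X, U)) (i : V ⟶ U) (hV : V = X.basicOpen f) :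
    @IsLocalizedModule Γ(X, U) _ Γ(M, U) Γ(M, V) _ _ _
      (sectionsModuleOfLE M i) (Submonoid.powers f) (resLinearMap M i) :=
  haveI := isQuasicoherent_of_isInvertible M hM
  isLocalizedModule_resLinearMap hU M f i hV

end Fermat.Agent.Jac.AffineDict34
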