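/-
JAC programme (S25), brick M2b AffineDict.Opens, helper34.

Adapter to helper40's `TwoCoverGammaSetting`: every quasi-coherent (in particular every
invertible) sheaf of modules is quasi-coherent relative to a two-chart cover (`TwoCover.IsQC`),
and the sections of an invertible module over the two charts are invertible modules.
-/
import Fermat.Agent.Jac.TwoCoverGammaSetting
import Fermat.Agent.Jac.AffineDict34.OpensInvertible

universe u

open CategoryTheory AlgebraicGeometry TopologicalSpace Opposite
open Fermat.Agent.Jac.TwoCoverGammaSetting

namespace Fermat.Agent.Jac.AffineDict34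

variable {A : Type u} [CommRing A] {X : Scheme.{u}} (𝒰 : TwoCover A X)

/-- Every quasi-coherent module is quasi-coherent relative to a two-chart cover. -/
theorem isQC_of_isQuasicoherent (M : X.Modules)
    [SheafOfModules.IsQuasicoherent.{u} (R := X.ringCatSheaf) M] : 𝒰.IsQC M where
  loc0 := isLocalizedModule_resLinearMap 𝒰.affine0 M 𝒰.t (homOfLE inf_le_left) 𝒰.inter0
  loc1 := isLocalizedModule_resLinearMap 𝒰.affine1 M 𝒰.s (homOfLE inf_le_right) 𝒰.inter1

/-- Every invertible module is quasi-coherent relative to a two-chart cover. -/
theorem isQC_of_isInvertible (M : X.Modules) (hM : Scheme.Modules.IsInvertible M) :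
    𝒰.IsQC M :=
  haveI := isQuasicoherent_of_isInvertible M hM
  isQC_of_isQuasicoherent 𝒰 M

/-- Sections of an invertible module over the first chart. -/
theorem invertible_N0 (M : X.Modules) (hM : Scheme.Modules.IsInvertible M) :
    Module.Invertible 𝒰.R0 (𝒰.N0 M) :=
  invertible_sections 𝒰.affine0 M hM

/-- Sections of an invertible module over the second chart. -/
theorem invertible_N1 (M : X.Modules) (hM : Scheme.Modules.IsInvertible M) :
    Module.Invertible 𝒰.R1 (𝒰.N1 M) :=
  invertible_sections 𝒰.affine1 M hM

end Fermat.Agent.Jac.AffineDict34
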